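/-
S55 / G-ADAPTER, leaf GAD-INF (gd8), helper953.

ABSTRACT PART (`T7` of helper293's memo, in the exact shape of `Tow` gd8):
`π : G' →* G` surjective, `A : Rep k G'`, `B : Rep k G`, `f : Rep.res π B ⟶ A` injective with
image the `ker π`-invariants of `A`, `P ≤ ker π` with `H¹(P, A) = 0`, `a` coprime to
`[ker π : P]`.  Then `groupCohomology.map π f 2 : H²(G, B) → H²(G', A)` is injective on the
elements killed by `a`.

Proof: `map π f 2` factors as the isomorphism `H²(G, B) ≅ H²(G' ⧸ ker π, A^{ker π})` followed by
the inflation map, and the latter is injective on `a`-torsion by helper244's `p`-local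
inflation–restriction (`T.H244.infRes2_of_subgroup`).

TOWER PART: `infInj_of : ClassModuleSpec S p → DescSpec S → InfInjSpec S p`.
-/
import Fermat.Agent.S55.T.InfResTorsH244
import Fermat.Agent.S55.T.UglyH954
import Fermat.Agent.S55.GAD.Spec

set_option autoImplicit false
set_option linter.unusedSectionVars false
set_option linter.style.haveILetI false

open CategoryTheory groupCohomology

namespace Fermat.Agent.S55.GAD.H953

open Fermat.Agent.S55 Fermat.Agent.S55.T

noncomputable section

section Abstract

variable {k G' G : Type} [CommRing k] [Group G'] [Group G]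
variable (π : G' →* G)
variable (A : Rep.{0} k G') (B : Rep.{0} k G) (f : Rep.res π B ⟶ A)

/-- The image of `f` consists of `ker π`-invariants. -/
lemma f_mem_invariants (b : B.V) :
    f.hom b ∈ Representation.invariants (A.ρ.comp π.ker.subtype) := by
  intro n
  have h1 := Rep.hom_comm_apply f (n : G') b
  have h2 : (Rep.res π B).ρ (n : G') b = b := by
    show B.ρ (π (n : G')) b = b
    rw [(MonoidHom.mem_ker).1 n.2, map_one]
    rfl
  rw [h2] at h1
  exact h1.symm

/-- `f`, corestricted to the invariants, as a linear equivalence `B ≃ A^{ker π}`. -/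
def invEquiv (hf : Function.Injective f.hom)
    (hrange : ∀ a : A.V, (∀ n ∈ π.ker, A.ρ n a = a) → a ∈ Set.range f.hom) :
    B.V ≃ₗ[k] (A.quotientToInvariants π.ker).V :=
  LinearEquiv.ofBijective
    (f.hom.toLinearMap.codRestrict (Representation.invariants (A.ρ.comp π.ker.subtype))
      (f_mem_invariants π A B f))
    ⟨fun x y h => hf (congrArg Subtype.val h), fun y => by
      obtain ⟨b, hb⟩ := hrange y.1 (fun n hn => y.2 ⟨n, hn⟩)
      exact ⟨b, Subtype.ext hb⟩⟩

lemma invEquiv_coe (hf : Function.Injective f.hom)
    (hrange : ∀ a : A.V, (∀ n ∈ π.ker, A.ρ n a = a) → a ∈ Set.range f.hom) (b : B.V) :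
    ((invEquiv π A B f hf hrange b : (A.quotientToInvariants π.ker).V) : A.V) = f.hom b := rfl

/-- The comparison isomorphism `Hⁿ(G, B) ≅ Hⁿ(G' ⧸ ker π, A^{ker π})`. -/
def compIso (hπ : Function.Surjective π) (hf : Function.Injective f.hom)
    (hrange : ∀ a : A.V, (∀ n ∈ π.ker, A.ρ n a = a) → a ∈ Set.range f.hom) (n : ℕ) :
    groupCohomology B n ≅ groupCohomology (A.quotientToInvariants π.ker) n :=
  groupCohomology.mapIso (QuotientGroup.quotientKerEquivOfSurjective π hπ).symm
    (invEquiv π A B f hf hrange) (fun g => by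
      obtain ⟨g', rfl⟩ := hπ g
      refine LinearMap.ext fun b => Subtype.ext ?_
      have he : (QuotientGroup.quotientKerEquivOfSurjective π hπ).symm (π g') =
          (QuotientGroup.mk g' : G' ⧸ π.ker) := by
        rw [MulEquiv.symm_apply_eq]
        rfl
      show f.hom (B.ρ (π g') b) = _
      rw [he]
      exact Rep.hom_comm_apply f g' b) n

/-- `map π f n` is the comparison isomorphism followed by inflation. -/
lemma map_eq_compIso_infMap (hπ : Function.Surjective π) (hf : Function.Injective f.hom)
    (hrange : ∀ a : A.V, (∀ n ∈ π.ker, A.ρ n a = a) → a ∈ Set.range f.hom) (n : ℕ) :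
    groupCohomology.map π f n = (compIso π A B f hπ hf hrange n).hom ≫ infMap A π.ker n := by
  unfold compIso
  rw [groupCohomology.mapIso_hom]
  rw [← groupCohomology.map_comp]
  refine groupCohomology.map_congr ?_ ?_ n
  · ext g'
    rfl
  · rfl

/-- **Abstract gd8.**  `map π f 2` is injective on the elements killed by `a`, if `a` is coprime
to the index of a subgroup `P ≤ ker π` with `H¹(P, A) = 0`. -/
theorem map_eq_zero_imp (hπ : Function.Surjective π) (hf : Function.Injective f.hom)
    (hrange : ∀ a : A.V, (∀ n ∈ π.ker, A.ρ n a = a) → a ∈ Set.range f.hom)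
    [Finite π.ker] (P : Subgroup π.ker)
    (hP : ∀ z : groupCohomology (resSub (resSub A π.ker) P) 1, z = 0)
    {a : ℕ} (ha : a.Coprime P.index)
    (z : groupCohomology B 2) (haz : a • z = 0)
    (hz : (groupCohomology.map π f 2).hom z = 0) : z = 0 := by
  have hfac := map_eq_compIso_infMap π A B f hπ hf hrange 2
  set e := compIso π A B f hπ hf hrange 2 with he
  have hy : (infMap A π.ker 2).hom (e.hom.hom z) = 0 := by
    have : (groupCohomology.map π f 2).hom z = (infMap A π.ker 2).hom (e.hom.hom z) := by
      rw [hfac]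
      rfl
    rw [← this]
    exact hz
  have hay : a • e.hom.hom z = 0 := by
    rw [← map_nsmul, haz, map_zero]
  have h0 : e.hom.hom z = 0 :=
    (H244.infRes2_of_subgroup A π.ker P hP ha).1 _ hay hy
  have hinj : Function.Injective e.hom.hom := by
    intro x y hxy
    have := congrArg e.inv.hom hxy
    simpa using this
  exact hinj (h0.trans (map_zero _).symm)

end Abstract

section Tower

open Fermat.Agent.S55.Tow

variable (S : Finset Nat.Primes) (p : ℕ)

/-- **GAD-DESC** (refined Galois descent for the CANONICAL transition map of the concrete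
datum): `trT h : C(L) → C(L')` is injective, and every `Gal(L'/L)`-invariant element of `C(L')`
is in its image. -/
def DescSpec : Prop :=
  ∀ {L L' : Level S} (h : L ≤ L'), Function.Injective (trT h).hom ∧
    ∀ c : (CT L').V, (∀ n ∈ Level.relGal h, (CT L').ρ n c = c) → c ∈ Set.range (trT h).hom

/-- The `H¹`-vanishing half of GAD-CM (`gd1`): `H¹(H, C(L)) = 0` for every `p`-subgroup
`H ≤ Gal(L/ℚ)`, `L ⊇ μ_p`.  (Consequence of `ClassModuleSpec`; equivalently of `G.PClassUpperSpec`
transported along GAD-ISO.) -/
def H1VanishSpec : Prop :=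
  ∀ L : Level S, L.HasMu p → ∀ H : Subgroup L.Gal, IsPGroup p H →
    Limits.IsZero (groupCohomology (T.resSub (CT L) H) 1)

variable {S p}

theorem h1Vanish_of_classModule (hCM : ClassModuleSpec S p) : H1VanishSpec S p := by
  intro L hL H hH
  obtain ⟨γ, hγ⟩ := hCM L hL
  exact (hγ H hH).1

/-- **GAD-INF (gd8) from `H¹`-vanishing and descent.** -/
theorem infInj_of_h1Vanish (hp : p.Prime) (h1 : H1VanishSpec S p) (hD : DescSpec S) :
    InfInjSpec S p := by
  intro L L' h hL z hz hinf
  haveI : Fact p.Prime := ⟨hp⟩
  have hL' : L'.HasMu p := hL.mono h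
  obtain ⟨hinj, hrange⟩ := hD h
  have hsurj : Function.Surjective (Level.proj h) := by
    intro g
    induction g using QuotientGroup.induction_on with
    | H σ => exact ⟨QuotientGroup.mk σ, rfl⟩
  obtain ⟨P⟩ : Nonempty (Sylow p (Level.proj h).ker) := inferInstance
  have hPp : IsPGroup p ((P : Subgroup (Level.proj h).ker).map (Level.proj h).ker.subtype) :=
    P.isPGroup'.map _
  have hP : ∀ z : groupCohomology
      (resSub (resSub (CT L') (Level.proj h).ker) (P : Subgroup (Level.proj h).ker)) 1, z = 0 :=
    H954.eq_zero_of_iso_of_isZero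
      (H954.resResIso (CT L') (Level.proj h).ker (P : Subgroup (Level.proj h).ker) 1)
      (h1 L' hL' _ hPp)
  have hcop : p.Coprime (P : Subgroup (Level.proj h).ker).index :=
    (Nat.Prime.coprime_iff_not_dvd hp).2 P.not_dvd_index
  exact map_eq_zero_imp (Level.proj h) (CT L') (CT L) (trT h) hsurj hinj
    (fun c hc => hrange c hc) (P : Subgroup (Level.proj h).ker) hP hcop z hz hinf

/-- **GAD-INF (gd8) from GAD-CM and GAD-DESC.** -/
theorem infInj_of (hp : p.Prime) (hCM : ClassModuleSpec S p) (hD : DescSpec S) :
    InfInjSpec S p :=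
  infInj_of_h1Vanish hp (h1Vanish_of_classModule hCM) hD

end Tower

end

end Fermat.Agent.S55.GAD.H953
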